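/-
S56, W4 case C, block KN, seat LEV-A (helper83): valuation arithmetic toolkit.
Generic: `K` a field, `P` a valuation subring, `π ∈ 𝔪_P` nonzero (`π = p`), statements of the form
`x ^ b / π ^ a ∈ P` ("`v(x) ≥ a/b`" for `v(π) = 1`).
-/
import Mathlib

set_option autoImplicit false

namespace Fermat.Agent.S56.SS.LevA

variable {K : Type*} [Field K] (P : ValuationSubring K)

/-- `v(x) ≥ a / b` for `v(π) = 1`. -/
def VGe (π x : K) (a b : ℕ) : Prop := x ^ b / π ^ a ∈ P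

variable {P}

lemma vge_iff {π : K} (hπ : π ≠ 0) (x : K) (a b : ℕ) :
    VGe P π x a b ↔ P.valuation x ^ b ≤ P.valuation π ^ a := by
  unfold VGe
  rw [← P.valuation_le_one_iff, map_div₀, map_pow, map_pow]
  have h0 : P.valuation π ^ a ≠ 0 := pow_ne_zero _ ((Valuation.ne_zero_iff _).2 hπ)
  rw [div_le_one₀ (zero_lt_iff.2 h0)]

lemma val_pow_le_pow_iff {x y : K} {n : ℕ} (hn : n ≠ 0) :
    P.valuation x ^ n ≤ P.valuation y ^ n ↔ P.valuation x ≤ P.valuation y :=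
  pow_le_pow_iff_left₀ zero_le zero_le hn

lemma mem_of_pow_mem {x : K} {n : ℕ} (hn : n ≠ 0) (h : x ^ n ∈ P) : x ∈ P := by
  rw [← P.valuation_le_one_iff] at h ⊢
  rw [map_pow] at h
  have := (val_pow_le_pow_iff (P := P) (x := x) (y := 1) hn).1 (by rwa [map_one, one_pow])
  rwa [map_one] at this

lemma mem_nonunits_of_pow_mem {x : K} {n : ℕ} (h : x ^ n ∈ P.nonunits) :
    x ∈ P.nonunits := by
  rw [ValuationSubring.mem_nonunits_iff] at h ⊢
  rw [map_pow] at h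
  by_contra hx
  rw [not_lt] at hx
  have := one_le_pow₀ (n := n) hx
  exact absurd h (not_lt.2 this)

lemma vge_mem_nonunits {π : K} (hπ0 : π ≠ 0) (hπ : π ∈ P.nonunits) {x : K} {a b : ℕ}
    (ha : a ≠ 0) (h : VGe P π x a b) : x ∈ P.nonunits := by
  rw [vge_iff hπ0] at h
  rw [ValuationSubring.mem_nonunits_iff] at hπ ⊢
  have h1 : P.valuation π ^ a < 1 := pow_lt_one₀ zero_le hπ ha
  have h2 : P.valuation x ^ b < 1 := lt_of_le_of_lt h h1
  by_contra hx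
  rw [not_lt] at hx
  exact absurd h2 (not_lt.2 (one_le_pow₀ hx))

lemma vge_add {π : K} (hπ0 : π ≠ 0) {x y : K} {a b : ℕ} (hx : VGe P π x a b)
    (hy : VGe P π y a b) : VGe P π (x + y) a b := by
  rw [vge_iff hπ0] at hx hy ⊢
  rcases le_total (P.valuation x) (P.valuation y) with h | h
  · have h1 : P.valuation (x + y) ≤ P.valuation y :=
      (P.valuation.map_add x y).trans (max_le h le_rfl)
    exact (pow_le_pow_left₀ zero_le h1 b).trans hy
  · have h1 : P.valuation (x + y) ≤ P.valuation x :=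
      (P.valuation.map_add x y).trans (max_le le_rfl h)
    exact (pow_le_pow_left₀ zero_le h1 b).trans hx

lemma vge_mul_mem {π : K} {x y : K} {a b : ℕ} (hx : VGe P π x a b) (hy : y ∈ P) :
    VGe P π (x * y) a b := by
  unfold VGe at hx ⊢
  have : (x * y) ^ b / π ^ a = x ^ b / π ^ a * y ^ b := by
    rw [mul_pow]; ring
  rw [this]
  exact P.mul_mem _ _ hx (P.pow_mem hy b)

lemma vge_neg {π : K} {x : K} {a b : ℕ} (hx : VGe P π x a b) : VGe P π (-x) a b := by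
  have h := vge_mul_mem (y := -1) hx (P.neg_mem _ P.one_mem)
  rwa [mul_neg_one] at h

lemma vge_zero {π : K} (a : ℕ) {b : ℕ} (hb : b ≠ 0) : VGe P π 0 a b := by
  unfold VGe
  rw [zero_pow hb, zero_div]
  exact P.zero_mem

lemma vge_sub {π : K} (hπ0 : π ≠ 0) {x y : K} {a b : ℕ} (hx : VGe P π x a b)
    (hy : VGe P π y a b) : VGe P π (x - y) a b := by
  rw [sub_eq_add_neg]
  exact vge_add hπ0 hx (vge_neg hy)

/-- Units: `1 + 𝔪 ⊆ Pˣ`. -/
lemma one_add_unit {y : K} (hy : y ∈ P.nonunits) :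
    1 + y ∈ P ∧ (1 + y)⁻¹ ∈ P ∧ 1 + y ≠ 0 := by
  have hv : P.valuation y < 1 := (ValuationSubring.mem_nonunits_iff P).1 hy
  have h1 : P.valuation (1 + y) = 1 := by
    have := Valuation.map_add_eq_of_lt_left P.valuation (x := 1) (y := y) (by rwa [map_one])
    rw [this, map_one]
  refine ⟨(P.valuation_le_one_iff _).1 h1.le, ?_, ?_⟩
  · rw [← P.valuation_le_one_iff, map_inv₀, h1, inv_one]
  · intro h0
    rw [h0, map_zero] at h1
    exact zero_ne_one h1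

/-! ### Residues -/

variable (P) in
/-- `a` is the residue class of `x ∈ P`. -/
def ResIs (x : K) (a : IsLocalRing.ResidueField ↥P) : Prop :=
  ∃ h : x ∈ P, IsLocalRing.residue ↥P ⟨x, h⟩ = a

lemma resIs_zero : ResIs P 0 0 := ⟨P.zero_mem, map_zero _⟩

lemma resIs_one : ResIs P 1 1 := ⟨P.one_mem, map_one _⟩

lemma ResIs.add {x y : K} {a b : IsLocalRing.ResidueField ↥P} (hx : ResIs P x a)
    (hy : ResIs P y b) : ResIs P (x + y) (a + b) := by
  obtain ⟨h1, rfl⟩ := hx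
  obtain ⟨h2, rfl⟩ := hy
  exact ⟨P.add_mem _ _ h1 h2, map_add (IsLocalRing.residue ↥P) ⟨x, h1⟩ ⟨y, h2⟩⟩

lemma ResIs.mul {x y : K} {a b : IsLocalRing.ResidueField ↥P} (hx : ResIs P x a)
    (hy : ResIs P y b) : ResIs P (x * y) (a * b) := by
  obtain ⟨h1, rfl⟩ := hx
  obtain ⟨h2, rfl⟩ := hy
  exact ⟨P.mul_mem _ _ h1 h2, map_mul (IsLocalRing.residue ↥P) ⟨x, h1⟩ ⟨y, h2⟩⟩

lemma ResIs.pow {x : K} {a : IsLocalRing.ResidueField ↥P} (hx : ResIs P x a) (n : ℕ) :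
    ResIs P (x ^ n) (a ^ n) := by
  induction n with
  | zero => simpa using resIs_one
  | succ n ih =>
    rw [pow_succ, pow_succ]
    exact ih.mul hx

lemma resIs_of_mem_nonunits {x : K} (hx : x ∈ P.nonunits) : ResIs P x 0 := by
  have hx' : x ∈ P := ValuationSubring.nonunits_le hx
  refine ⟨hx', ?_⟩
  rw [IsLocalRing.residue_eq_zero_iff]
  exact (ValuationSubring.mem_nonunits_iff_exists_mem_maximalIdeal).1 hx |>.choose_spec

lemma ResIs.congr {x y : K} {a : IsLocalRing.ResidueField ↥P} (hx : ResIs P x a)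
    (h : y - x ∈ P.nonunits) : ResIs P y a := by
  have h1 := (resIs_of_mem_nonunits h).add hx
  rwa [sub_add_cancel, zero_add] at h1

lemma resIs_one_of_sub_mem {x : K} (h : x - 1 ∈ P.nonunits) : ResIs P x 1 :=
  resIs_one.congr h

/-! ### The `p`-th power of `1 + y` -/

section Pth

variable {p : ℕ}

lemma exists_pow_p (hp : p.Prime) {y : K} (hy : y ∈ P) :
    ∃ r ∈ P, (1 + y) ^ p - 1 = y ^ p + (p : K) * y * r := by
  have : Fact p.Prime := ⟨hp⟩
  obtain ⟨r, hr⟩ := exists_add_pow_prime_eq hp (1 : ↥P) ⟨y, hy⟩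
  refine ⟨(r : K), r.2, ?_⟩
  have h := congrArg (fun z : ↥P => (z : K)) hr
  have h' : (1 + y) ^ p = 1 ^ p + y ^ p + (p : K) * 1 * y * (r : K) := h
  rw [h', one_pow, mul_one]
  ring

lemma nat_ineq {p n : ℕ} (hp : 1 ≤ p) (hn : n ≤ p ^ 2 + p) :
    n * p ≤ p * (p ^ 2 - 1) + n := by
  obtain ⟨m, rfl⟩ : ∃ m, p = m + 1 := ⟨p - 1, by omega⟩
  have h1 : (m + 1) ^ 2 - 1 = m * (m + 2) := by
    have : (m + 1) ^ 2 = m * (m + 2) + 1 := by ring
    omega
  rw [h1]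
  have h2 : n * (m + 1) = n * m + n := by ring
  rw [h2]
  have h3 : n * m ≤ ((m + 1) ^ 2 + (m + 1)) * m := Nat.mul_le_mul_right m hn
  have h4 : ((m + 1) ^ 2 + (m + 1)) * m = (m + 1) * (m * (m + 2)) := by ring
  omega

/-- **L1 core**: `v(y) ≥ n/(pN)`, `0 < n ≤ p² + p`, `v(ϖ) = 1/N` ⟹ `v((1+y)^p - 1) ≥ n/N`. -/
lemma pow_p_sub_one_div_mem (hp : p.Prime) (hp0 : (p : K) ≠ 0) (hpm : (p : K) ∈ P.nonunits)
    {ϖ y : K} {n : ℕ} (hn : 0 < n) (hn' : n ≤ p ^ 2 + p)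
    (hge : VGe P (p : K) ϖ 1 (p ^ 2 - 1))
    (hle : ϖ ≠ 0 ∧ (p : K) ^ 1 / ϖ ^ (p ^ 2 - 1) ∈ P)
    (hy : VGe P (p : K) y n (p * (p ^ 2 - 1))) :
    ((1 + y) ^ p - 1) / ϖ ^ n ∈ P := by
  have hN : p ^ 2 - 1 ≠ 0 := by
    have := hp.two_le
    have : 4 ≤ p ^ 2 := by nlinarith
    omega
  have hpN : p * (p ^ 2 - 1) ≠ 0 := mul_ne_zero hp.ne_zero hN
  have hym : y ∈ P.nonunits := vge_mem_nonunits hp0 hpm hn.ne' hy
  have hyP : y ∈ P := ValuationSubring.nonunits_le hym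
  obtain ⟨r, hr, hZ⟩ := exists_pow_p hp hyP
  set w := P.valuation with hw
  have wp_lt : w (p : K) < 1 := (ValuationSubring.mem_nonunits_iff P).1 hpm
  have wr : w r ≤ 1 := (P.valuation_le_one_iff r).2 hr
  -- `w ϖ ^ N = w p`
  have h1 : w ϖ ^ (p ^ 2 - 1) ≤ w (p : K) := by
    have := (vge_iff hp0 ϖ 1 (p ^ 2 - 1)).1 hge
    rwa [pow_one] at this
  have h2 : w (p : K) ≤ w ϖ ^ (p ^ 2 - 1) := by
    have h := hle.2
    rw [← P.valuation_le_one_iff, map_div₀, map_pow, map_pow, pow_one] at h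
    have h0 : w ϖ ^ (p ^ 2 - 1) ≠ 0 := pow_ne_zero _ ((Valuation.ne_zero_iff _).2 hle.1)
    rwa [div_le_one₀ (zero_lt_iff.2 h0)] at h
  have hϖN : w ϖ ^ (p ^ 2 - 1) = w (p : K) := le_antisymm h1 h2
  have hyv : w y ^ (p * (p ^ 2 - 1)) ≤ w (p : K) ^ n := (vge_iff hp0 y n _).1 hy
  -- the goal in terms of valuations
  rw [← P.valuation_le_one_iff, map_div₀, map_pow]
  have h0 : w ϖ ^ n ≠ 0 := pow_ne_zero _ ((Valuation.ne_zero_iff _).2 hle.1)
  rw [div_le_one₀ (zero_lt_iff.2 h0)]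
  -- compare `pN`-th powers
  have key : w ((1 + y) ^ p - 1) ^ (p * (p ^ 2 - 1)) ≤ (w ϖ ^ n) ^ (p * (p ^ 2 - 1)) := by
    have hR : (w ϖ ^ n) ^ (p * (p ^ 2 - 1)) = w (p : K) ^ (n * p) := by
      rw [← pow_mul, show n * (p * (p ^ 2 - 1)) = (p ^ 2 - 1) * (n * p) by ring, pow_mul, hϖN]
    rw [hR, hZ]
    have hmax : w (y ^ p + (p : K) * y * r) ≤ max (w y ^ p) (w (p : K) * w y) := by
      refine (w.map_add _ _).trans (max_le_max ?_ ?_)
      · rw [map_pow]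
      · rw [map_mul, map_mul]
        calc w (p : K) * w y * w r ≤ w (p : K) * w y * 1 := by gcongr
          _ = w (p : K) * w y := mul_one _
    refine (pow_le_pow_left₀ zero_le hmax _).trans ?_
    rcases le_total (w y ^ p) (w (p : K) * w y) with h | h
    · rw [max_eq_right h, mul_pow]
      calc w (p : K) ^ (p * (p ^ 2 - 1)) * w y ^ (p * (p ^ 2 - 1))
          ≤ w (p : K) ^ (p * (p ^ 2 - 1)) * w (p : K) ^ n := by gcongr
        _ = w (p : K) ^ (p * (p ^ 2 - 1) + n) := (pow_add _ _ _).symm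
        _ ≤ w (p : K) ^ (n * p) :=
          pow_le_pow_of_le_one zero_le wp_lt.le (nat_ineq hp.one_le hn')
    · rw [max_eq_left h]
      have e1 : (w y ^ p) ^ (p * (p ^ 2 - 1)) = (w y ^ (p * (p ^ 2 - 1))) ^ p := by
        rw [← pow_mul, ← pow_mul, mul_comm]
      have e2 : w (p : K) ^ (n * p) = (w (p : K) ^ n) ^ p := by rw [← pow_mul]
      rw [e1, e2]
      exact pow_le_pow_left₀ zero_le hyv p
  exact (pow_le_pow_iff_left₀ zero_le zero_le hpN).1 key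

end Pth

end Fermat.Agent.S56.SS.LevA
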